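import Mathlib
import Fermat.Agent.LT.T7.H534.WBasisSpec
import Fermat.Agent.LT.T2.AdapterW
import Fermat.Agent.LT.T2.Admissible

/-!
# Row LT, tower T7, NODE T7.L2.3.5.4.2 `SD534.V2BasisC` (helper613, registry row 2355)

OFF-MAIN.  Complete proof, nothing assumed.
Spec: `Fermat/Agent/LT/T7/H534/WBasisSpec.lean` (helper534@f2b76c564), byte-identical copy.
Assets: tower T2 of helper130 (`T2/AdapterW.lean`, `T2/Admissible.lean`, `T2/ExtrasSeq.lean`,
byte-identical copies of origin/helper130@9e2adc93b).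

    v2BasisC613 (K) : SD534.V2BasisC K

## Proof

`T2.cuspSpecPlus_closed` gives an orthonormal complete family `e j` (`j : ι`) of joint
eigen-cusp-functions of level `U(𝔫)` with unitary data `(a j, b j, m j)`; `ι` is countable
(`T2.countable_index130`), so it is enumerated by an injection `ι → ℕ` with range `J`.

* NORMALISED DATA `cN j`: `a`, `b` are replaced by `0` at the places dividing `𝔫`, `m w d` by `0`
  unless `0 < d` and a sphere family of radius `d` at `w` exists.  The eigen-conditions and the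
  unitarity relations only see the other values, so they are kept.
* FINITE CLASSES: equal normalised data have equal mean eigenvalue functions at the positive
  radii, so the class is contained in the finite set of `T2.finite_meanClass130`.
* EXHAUSTION: a member `ψ` of `V₂` with the data `cN j₀` is orthogonal to every `e j` with
  `cN j ≠ cN j₀` (`T_v* = S_v⁻¹ T_v`, `S_v` unitary, the sphere means self-adjoint:
  `T2.OpsAdj`; Hecke coset systems and scalar uniformisers exist: `T1.HeckeCosetC`).  So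
  `ψ' = ψ - ∑_{j in the class} ⟨ψ, e j⟩ e j` is a cusp function orthogonal to every `e j`; by
  Parseval `‖ψ'‖² = 0`, and `ψ' = 0` (`T2.PairDefinite`).
-/

set_option autoImplicit false
set_option linter.unusedSectionVars false
set_option linter.unusedVariables false

open AutomorphicForm IsDedekindDomain NumberField MeasureTheory
open scoped ComplexConjugate

noncomputable section

namespace Fermat.Agent.LT.T7.H613

open Fermat.Agent.LT.H556 Fermat.Agent.LT.H556.A0 Fermat.Agent.LT Fermat.Agent.LT.T7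

attribute [local instance] Fermat.Agent.LT.T2.borelG

variable {K : Type} [Field K] [NumberField K]

/-! ## 1. Orthogonality of eigenfunctions with different data -/

theorem sqrt_absNorm_ne_zero613 (v : HeightOneSpectrum (𝓞 K)) :
    ((Real.sqrt (Ideal.absNorm v.asIdeal : ℝ) : ℝ) : ℂ) ≠ 0 := by
  have h0 : Ideal.absNorm v.asIdeal ≠ 0 := by
    intro h
    exact v.ne_bot (Ideal.absNorm_eq_zero_iff.1 h)
  have h1 : (0 : ℝ) < (Ideal.absNorm v.asIdeal : ℝ) := by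
    exact_mod_cast Nat.pos_of_ne_zero h0
  exact_mod_cast (Real.sqrt_pos.2 h1).ne'

/-- The eigenvalue of `S_v⁻¹`. -/
theorem shift_inv_eig613 {ψ : G K → ℂ} {z : G K} {b : ℂ} (hb : b ≠ 0)
    (h : ∀ g : G K, ψ (g * z) = b * ψ g) (g : G K) : ψ (g * z⁻¹) = b⁻¹ * ψ g := by
  have h1 := h (g * z⁻¹)
  rw [inv_mul_cancel_right] at h1
  rw [h1, ← mul_assoc, inv_mul_cancel₀ hb, one_mul]

theorem orth_of_a613 {𝔫 : Ideal (𝓞 K)} (h𝔫 : 𝔫 ≠ ⊥) (F : T2.Frame K) {φ ψ : G K → ℂ}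
    (hφ : T2.IsCuspFn 𝔫 φ) (hψ : T2.IsCuspFn 𝔫 ψ) {v : HeightOneSpectrum (𝓞 K)}
    (hv : ¬ v.asIdeal ∣ 𝔫) {a b a' b' : ℂ} (h1 : IsHeckeEigenAt φ v a b)
    (h2 : IsHeckeEigenAt ψ v a' b') (hb' : ‖b'‖ = 1) (ha' : conj a' = a' * conj b')
    (hne : a ≠ a') : T2.pair F φ ψ = 0 := by
  obtain ⟨⟨H, hH⟩, -, ⟨z, hz⟩⟩ := (T1.t1Out K).heckeCoset v
  have hOA := (T2.ops_closed K 𝔫 h𝔫).2 F
  have key := hOA.2.1 v hv H z hH hz φ ψ hφ hψ
  have hb0 : b' ≠ 0 := by
    intro h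
    rw [h, norm_zero] at hb'
    exact zero_ne_one hb'
  have hcb0 : conj b' ≠ 0 := fun h => hb0 ((map_eq_zero _).1 h)
  set q : ℂ := ((Real.sqrt (Ideal.absNorm v.asIdeal : ℝ) : ℝ) : ℂ) with hq
  have hq0 : q ≠ 0 := sqrt_absNorm_ne_zero613 v
  have e1 : T2.heckeSum H φ = (q * a) • φ := by
    funext g
    exact h1.1 H hH g
  have e2 : T2.shift z⁻¹ (T2.heckeSum H ψ) = (q * a' * b'⁻¹) • ψ := by
    funext g
    show (∑ h ∈ H, ψ (g * z⁻¹ * h)) = (q * a' * b'⁻¹) * ψ g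
    rw [h2.1 H hH (g * z⁻¹), shift_inv_eig613 hb0 (h2.2 z hz) g]
    ring
  rw [e1, e2, T2.H566.pair_smul_left566, T2.H566.pair_smul_right566] at key
  have e3 : conj (q * a' * b'⁻¹) = q * a' := by
    rw [map_mul, map_mul, map_inv₀, ha', hq, Complex.conj_ofReal, mul_assoc, mul_assoc,
      mul_inv_cancel₀ hcb0, mul_one]
  rw [e3] at key
  have h3 : q * (a - a') * T2.pair F φ ψ = 0 := by linear_combination key
  rcases mul_eq_zero.1 h3 with h4 | h4
  · rcases mul_eq_zero.1 h4 with h5 | h5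
    · exact absurd h5 hq0
    · exact absurd (sub_eq_zero.1 h5) hne
  · exact h4

theorem orth_of_b613 {𝔫 : Ideal (𝓞 K)} (h𝔫 : 𝔫 ≠ ⊥) (F : T2.Frame K) {φ ψ : G K → ℂ}
    (hφ : T2.IsCuspFn 𝔫 φ) (hψ : T2.IsCuspFn 𝔫 ψ) {v : HeightOneSpectrum (𝓞 K)}
    (hv : ¬ v.asIdeal ∣ 𝔫) {a b a' b' : ℂ} (h1 : IsHeckeEigenAt φ v a b)
    (h2 : IsHeckeEigenAt ψ v a' b') (hb' : ‖b'‖ = 1) (hne : b ≠ b') :
    T2.pair F φ ψ = 0 := by
  obtain ⟨-, -, ⟨z, hz⟩⟩ := (T1.t1Out K).heckeCoset v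
  have hOA := (T2.ops_closed K 𝔫 h𝔫).2 F
  have key := hOA.1 v hv z hz φ ψ hφ hψ
  have e1 : T2.shift z φ = b • φ := by
    funext g
    exact h1.2 z hz g
  have e2 : T2.shift z ψ = b' • ψ := by
    funext g
    exact h2.2 z hz g
  rw [e1, e2, T2.H566.pair_smul_left566, T2.H566.pair_smul_right566] at key
  have hbb : conj b' * b' = 1 := by
    rw [mul_comm, Complex.mul_conj, Complex.normSq_eq_norm_sq, hb', one_pow, Complex.ofReal_one]
  by_contra hp
  have h3 : b * conj b' = 1 := by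
    have h4 : (b * conj b' - 1) * T2.pair F φ ψ = 0 := by linear_combination key
    rcases mul_eq_zero.1 h4 with h5 | h5
    · exact sub_eq_zero.1 h5
    · exact absurd h5 hp
  apply hne
  calc b = b * (conj b' * b') := by rw [hbb, mul_one]
    _ = (b * conj b') * b' := by ring
    _ = b' := by rw [h3, one_mul]

theorem orth_of_m613 {𝔫 : Ideal (𝓞 K)} (h𝔫 : 𝔫 ≠ ⊥) (F : T2.Frame K) {φ ψ : G K → ℂ}
    (hφ : T2.IsCuspFn 𝔫 φ) (hψ : T2.IsCuspFn 𝔫 ψ) {w : InfinitePlace K} (hw : w.IsComplex)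
    {d : ℝ} (hd : 0 < d) {Y : ℝ → ℝ → G K} (hY : T2.IsSphereAt w d Y) {m m' : ℝ → ℂ}
    (h1 : T2.MeanEigC φ w m) (h2 : T2.MeanEigC ψ w m') (hm' : (m' d).im = 0)
    (hne : m d ≠ m' d) : T2.pair F φ ψ = 0 := by
  have hOA := (T2.ops_closed K 𝔫 h𝔫).2 F
  have key := hOA.2.2.1 w hw d hd Y hY φ ψ hφ hψ
  have e1 : T2.sphereMean Y φ = (m d) • φ := by
    funext g
    exact h1 d hd Y hY g
  have e2 : T2.sphereMean Y ψ = (m' d) • ψ := by
    funext g
    exact h2 d hd Y hY g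
  rw [e1, e2, T2.H566.pair_smul_left566, T2.H566.pair_smul_right566] at key
  have e3 : conj (m' d) = m' d := Complex.conj_eq_iff_im.2 hm'
  rw [e3] at key
  have h3 : (m d - m' d) * T2.pair F φ ψ = 0 := by linear_combination key
  rcases mul_eq_zero.1 h3 with h4 | h4
  · exact absurd (sub_eq_zero.1 h4) hne
  · exact h4


/-! ## 2. Normalised data -/

theorem eigData_ext613 {c c' : EigData K} (ha : c.a = c'.a) (hb : c.b = c'.b)
    (hm : c.m = c'.m) : c = c' := by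
  cases c
  cases c'
  simp only at ha hb hm
  subst ha hb hm
  rfl

open Classical in
/-- The normalised eigen-data: `0` at the places dividing the level, and at the radii which are
not positive or carry no sphere family. -/
def normData613 (𝔫 : Ideal (𝓞 K)) (a b : HeightOneSpectrum (𝓞 K) → ℂ)
    (m : InfinitePlace K → ℝ → ℂ) : EigData K where
  a := fun v => if v.asIdeal ∣ 𝔫 then 0 else a v
  b := fun v => if v.asIdeal ∣ 𝔫 then 0 else b v
  m := fun w d => if 0 < d ∧ ∃ Y : ℝ → ℝ → G K, T2.IsSphereAt w d Y then m w d else 0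

theorem normData_a613 {𝔫 : Ideal (𝓞 K)} {a b : HeightOneSpectrum (𝓞 K) → ℂ}
    {m : InfinitePlace K → ℝ → ℂ} {v : HeightOneSpectrum (𝓞 K)} (hv : ¬ v.asIdeal ∣ 𝔫) :
    (normData613 𝔫 a b m).a v = a v := if_neg hv

theorem normData_b613 {𝔫 : Ideal (𝓞 K)} {a b : HeightOneSpectrum (𝓞 K) → ℂ}
    {m : InfinitePlace K → ℝ → ℂ} {v : HeightOneSpectrum (𝓞 K)} (hv : ¬ v.asIdeal ∣ 𝔫) :
    (normData613 𝔫 a b m).b v = b v := if_neg hv

theorem normData_a_bad613 {𝔫 : Ideal (𝓞 K)} {a b : HeightOneSpectrum (𝓞 K) → ℂ}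
    {m : InfinitePlace K → ℝ → ℂ} {v : HeightOneSpectrum (𝓞 K)} (hv : v.asIdeal ∣ 𝔫) :
    (normData613 𝔫 a b m).a v = 0 := if_pos hv

theorem normData_b_bad613 {𝔫 : Ideal (𝓞 K)} {a b : HeightOneSpectrum (𝓞 K) → ℂ}
    {m : InfinitePlace K → ℝ → ℂ} {v : HeightOneSpectrum (𝓞 K)} (hv : v.asIdeal ∣ 𝔫) :
    (normData613 𝔫 a b m).b v = 0 := if_pos hv

theorem normData_m613 {𝔫 : Ideal (𝓞 K)} {a b : HeightOneSpectrum (𝓞 K) → ℂ}
    {m : InfinitePlace K → ℝ → ℂ} {w : InfinitePlace K} {d : ℝ} (hd : 0 < d)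
    {Y : ℝ → ℝ → G K} (hY : T2.IsSphereAt w d Y) :
    (normData613 𝔫 a b m).m w d = m w d := if_pos ⟨hd, Y, hY⟩

theorem normData_m_bad613 {𝔫 : Ideal (𝓞 K)} {a b : HeightOneSpectrum (𝓞 K) → ℂ}
    {m : InfinitePlace K → ℝ → ℂ} {w : InfinitePlace K} {d : ℝ}
    (h : ¬ (0 < d ∧ ∃ Y : ℝ → ℝ → G K, T2.IsSphereAt w d Y)) :
    (normData613 𝔫 a b m).m w d = 0 := if_neg h

/-- A joint eigenfunction of T2 has the normalised data. -/
theorem isEigFn_norm613 {𝔫 : Ideal (𝓞 K)} {r : G K} (hr : T5.IsRayGen r)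
    (u : HeightOneSpectrum (𝓞 K)) {e : G K → ℂ} {a b : HeightOneSpectrum (𝓞 K) → ℂ}
    {m : InfinitePlace K → ℝ → ℂ} (hc : T2.IsCuspFn 𝔫 e)
    (hh : ∀ v : HeightOneSpectrum (𝓞 K), ¬ v.asIdeal ∣ 𝔫 → IsHeckeEigenAt e v (a v) (b v))
    (hm : ∀ w : InfinitePlace K, T2.MeanEigC e w (m w)) :
    IsEigFn 𝔫 r 0 (fun _ => u) e (normData613 𝔫 a b m) where
  inv := (T2.isWFn_zero_iff130 hr _ e).2 hc
  hecke := fun v hv => by
    rw [normData_a613 hv, normData_b613 hv]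
    exact hh v hv
  mean := fun w d hd Y hY g => by
    have h := hm w d hd Y hY g
    have e1 : (normData613 𝔫 a b m).m w d = m w d := normData_m613 hd hY
    rw [e1]
    exact h

/-- The normalised data of a unitary datum are unitary outside the level. -/
theorem isUnitOut_norm613 {𝔫 : Ideal (𝓞 K)} {a b : HeightOneSpectrum (𝓞 K) → ℂ}
    {m : InfinitePlace K → ℝ → ℂ}
    (hb : ∀ v : HeightOneSpectrum (𝓞 K), ¬ v.asIdeal ∣ 𝔫 → ‖b v‖ = 1)
    (ha : ∀ v : HeightOneSpectrum (𝓞 K), ¬ v.asIdeal ∣ 𝔫 → conj (a v) = a v * conj (b v))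
    (hbd : ∀ v : HeightOneSpectrum (𝓞 K), ¬ v.asIdeal ∣ 𝔫 →
      ‖a v‖ * Real.sqrt (Ideal.absNorm v.asIdeal : ℝ) ≤ (Ideal.absNorm v.asIdeal : ℝ) + 1)
    (hre : ∀ (w : InfinitePlace K) (d : ℝ), 0 < d → (m w d).im = 0)
    (hmb : ∀ (w : InfinitePlace K) (d : ℝ), 0 < d → ‖m w d‖ ≤ 4 * Real.pi) :
    SD534.IsUnitOut 𝔫 (normData613 𝔫 a b m) := by
  refine ⟨fun v hv => ?_, fun w d hd => ?_⟩
  · rw [normData_a613 hv, normData_b613 hv]
    exact ⟨hb v hv, ha v hv, hbd v hv⟩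
  · by_cases h : 0 < d ∧ ∃ Y : ℝ → ℝ → G K, T2.IsSphereAt w d Y
    · obtain ⟨_, Y, hY⟩ := h
      rw [normData_m613 hd hY]
      exact ⟨hre w d hd, hmb w d hd⟩
    · rw [normData_m_bad613 h]
      refine ⟨rfl, ?_⟩
      rw [norm_zero]
      positivity

/-- Two eigenfunctions which are not orthogonal have the same normalised data. -/
theorem normData_eq_of_pair_ne613 (hcx : ∀ w : InfinitePlace K, w.IsComplex)
    {𝔫 : Ideal (𝓞 K)} (h𝔫 : 𝔫 ≠ ⊥) (F : T2.Frame K) {r : G K} (hr : T5.IsRayGen r)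
    (u : HeightOneSpectrum (𝓞 K)) {ψ e : G K → ℂ}
    {a₀ b₀ a b : HeightOneSpectrum (𝓞 K) → ℂ} {m₀ m : InfinitePlace K → ℝ → ℂ}
    (hψ : IsEigFn 𝔫 r 0 (fun _ => u) ψ (normData613 𝔫 a₀ b₀ m₀))
    (hc : T2.IsCuspFn 𝔫 e)
    (hh : ∀ v : HeightOneSpectrum (𝓞 K), ¬ v.asIdeal ∣ 𝔫 → IsHeckeEigenAt e v (a v) (b v))
    (hm : ∀ w : InfinitePlace K, T2.MeanEigC e w (m w))
    (hb : ∀ v : HeightOneSpectrum (𝓞 K), ¬ v.asIdeal ∣ 𝔫 → ‖b v‖ = 1)
    (ha : ∀ v : HeightOneSpectrum (𝓞 K), ¬ v.asIdeal ∣ 𝔫 → conj (a v) = a v * conj (b v))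
    (hre : ∀ (w : InfinitePlace K) (d : ℝ), 0 < d → (m w d).im = 0)
    (hp : T2.pair F ψ e ≠ 0) :
    normData613 𝔫 a b m = normData613 𝔫 a₀ b₀ m₀ := by
  have hψc : T2.IsCuspFn 𝔫 ψ := (T2.isWFn_zero_iff130 hr _ ψ).1 hψ.inv
  refine eigData_ext613 (funext fun v => ?_) (funext fun v => ?_)
    (funext fun w => funext fun d => ?_)
  · by_cases hv : v.asIdeal ∣ 𝔫
    · rw [normData_a_bad613 hv, normData_a_bad613 hv]
    · by_contra hne
      rw [normData_a613 hv] at hne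
      exact hp (orth_of_a613 h𝔫 F hψc hc hv (hψ.hecke v hv) (hh v hv) (hb v hv) (ha v hv)
        (fun h => hne h.symm))
  · by_cases hv : v.asIdeal ∣ 𝔫
    · rw [normData_b_bad613 hv, normData_b_bad613 hv]
    · by_contra hne
      rw [normData_b613 hv] at hne
      exact hp (orth_of_b613 h𝔫 F hψc hc hv (hψ.hecke v hv) (hh v hv) (hb v hv)
        (fun h => hne h.symm))
  · by_cases h : 0 < d ∧ ∃ Y : ℝ → ℝ → G K, T2.IsSphereAt w d Y
    · obtain ⟨hd, Y, hY⟩ := h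
      by_contra hne
      rw [normData_m613 hd hY] at hne
      exact hp (orth_of_m613 h𝔫 F hψc hc (hcx w) hd hY (hψ.mean w) (hm w) (hre w d hd)
        (fun h => hne h.symm))
    · rw [normData_m_bad613 h, normData_m_bad613 h]


/-! ## 3. Finite combinations of cusp functions -/

theorem isCuspFn_smul613 (hFD : T1.AddFundDomC K) {𝔫 : Ideal (𝓞 K)} {φ : G K → ℂ}
    (hφ : T2.IsCuspFn 𝔫 φ) (c : ℂ) : T2.IsCuspFn 𝔫 (c • φ) := by
  have h := T2.H566.isCuspFn_add_smul566 hFD (T2.H566.isCuspFn_zero566 𝔫) hφ c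
  have e1 : (fun g => (fun _ : G K => (0 : ℂ)) g + c * φ g) = c • φ := by
    funext g
    show (0 : ℂ) + c * φ g = c * φ g
    rw [zero_add]
  rw [e1] at h
  exact h

theorem sub_sum_insert613 {ι : Type} [DecidableEq ι] (ψ : G K → ℂ) (e : ι → G K → ℂ)
    (coef : ι → ℂ) {j : ι} {T : Finset ι} (hj : j ∉ T) :
    (fun g => ψ g - ∑ i ∈ insert j T, coef i * e i g)
      = (fun g => ψ g - ∑ i ∈ T, coef i * e i g) + (-(coef j)) • e j := by
  funext g
  show ψ g - ∑ i ∈ insert j T, coef i * e i g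
    = (ψ g - ∑ i ∈ T, coef i * e i g) + -(coef j) * e j g
  rw [Finset.sum_insert hj]
  ring

theorem sub_sum_empty613 {ι : Type} (ψ : G K → ℂ) (e : ι → G K → ℂ) (coef : ι → ℂ) :
    (fun g => ψ g - ∑ i ∈ (∅ : Finset ι), coef i * e i g) = ψ := by
  funext g
  rw [Finset.sum_empty, sub_zero]

theorem isCuspFn_add613 (hFD : T1.AddFundDomC K) {𝔫 : Ideal (𝓞 K)} {φ ψ : G K → ℂ}
    (hφ : T2.IsCuspFn 𝔫 φ) (hψ : T2.IsCuspFn 𝔫 ψ) : T2.IsCuspFn 𝔫 (φ + ψ) := by
  have h := T2.H566.isCuspFn_add_smul566 hFD hφ hψ 1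
  have e1 : (fun g => φ g + 1 * ψ g) = φ + ψ := by
    funext g
    show φ g + 1 * ψ g = φ g + ψ g
    rw [one_mul]
  rw [e1] at h
  exact h

theorem isCuspFn_sub_sum613 (hFD : T1.AddFundDomC K) {𝔫 : Ideal (𝓞 K)} {ι : Type}
    {ψ : G K → ℂ} {e : ι → G K → ℂ} (hψ : T2.IsCuspFn 𝔫 ψ) (he : ∀ j, T2.IsCuspFn 𝔫 (e j))
    (coef : ι → ℂ) (T : Finset ι) :
    T2.IsCuspFn 𝔫 (fun g => ψ g - ∑ j ∈ T, coef j * e j g) := by
  classical
  induction T using Finset.induction_on with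
  | empty =>
    rw [sub_sum_empty613]
    exact hψ
  | insert j T hj ih =>
    rw [sub_sum_insert613 ψ e coef hj]
    exact isCuspFn_add613 hFD ih (isCuspFn_smul613 hFD (he j) _)

theorem pair_sub_sum613 (hFD : T1.AddFundDomC K) (F : T2.Frame K) {𝔫 : Ideal (𝓞 K)} {ι : Type}
    {ψ φ : G K → ℂ} {e : ι → G K → ℂ} (hψ : T2.IsCuspFn 𝔫 ψ) (he : ∀ j, T2.IsCuspFn 𝔫 (e j))
    (hφ : T2.IsCuspFn 𝔫 φ) (coef : ι → ℂ) (T : Finset ι) :
    T2.pair F (fun g => ψ g - ∑ j ∈ T, coef j * e j g) φ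
      = T2.pair F ψ φ - ∑ j ∈ T, coef j * T2.pair F (e j) φ := by
  classical
  induction T using Finset.induction_on with
  | empty =>
    rw [sub_sum_empty613, Finset.sum_empty, sub_zero]
  | insert j T hj ih =>
    rw [sub_sum_insert613 ψ e coef hj,
      T2.H566.pair_add_left566 F (isCuspFn_sub_sum613 hFD hψ he coef T)
        (isCuspFn_smul613 hFD (he j) _) hφ,
      T2.H566.pair_smul_left566, ih, Finset.sum_insert hj]
    ring

/-- A cusp function which is orthogonal to a complete family is zero. -/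
theorem eq_zero_of_orth613 {𝔫 : Ideal (𝓞 K)} (h𝔫 : 𝔫 ≠ ⊥) (F : T2.Frame K) {ι : Type}
    {e : ι → G K → ℂ} {φ : G K → ℂ} (hφ : T2.IsCuspFn 𝔫 φ)
    (hpars : HasSum (fun j => ‖T2.pair F φ (e j)‖ ^ 2) (T2.nsq F φ))
    (horth : ∀ j, T2.pair F φ (e j) = 0) (g : G K) : φ g = 0 := by
  have h0 : (fun j => ‖T2.pair F φ (e j)‖ ^ 2) = fun _ => (0 : ℝ) := by
    funext j
    rw [horth j, norm_zero]
    norm_num
  rw [h0] at hpars
  have h1 : T2.nsq F φ = 0 := hpars.unique hasSum_zero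
  have h2 : T2.pair F φ φ = 0 := by
    rw [T2.H566.pair_self_ofReal566, h1, Complex.ofReal_zero]
  exact (T2.pairDefinite_closed K 𝔫 h𝔫 F φ hφ).2 h2 g


/-! ## 4. The node -/

/-- **NODE WB.2 = `V₂`-BASIS** (`SD534.V2BasisC`). -/
theorem v2BasisC613 (K : Type) [Field K] [NumberField K] : SD534.V2BasisC K := by
  classical
  intro μ F r 𝔫 u h𝔫 hF hr hcx
  have hFD : T1.AddFundDomC K := (T1.t1Out K).addFundDom
  -- the frame of T2
  have hR : T7.IsFrame5 (⟨μ, F, r⟩ : T7.Frame5 K) := ⟨hF, hr⟩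
  obtain ⟨ι, e, m, a, b, hB⟩ :=
    T2.cuspSpecPlus_closed K 𝔫 h𝔫 (T2.frameOf130 (⟨μ, F, r⟩ : T7.Frame5 K) hR)
  have hcount : Countable ι :=
    T2.countable_index130 h𝔫 hB.basis.cusp hB.basis.norm_one hB.basis.orth hB.eig_op
  obtain ⟨g, hg⟩ := hcount.exists_injective_nat
  -- the normalised data
  have hEig : ∀ j, IsEigFn 𝔫 r 0 (fun _ => u) (e j) (normData613 𝔫 (a j) (b j) (m j)) :=
    fun j => isEigFn_norm613 hr u (hB.basis.cusp j) (fun v hv => hB.basis.hecke j v hv)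
      (fun w => hB.basis.eig_complex j w (hcx w))
  have hUnit : ∀ j, SD534.IsUnitOut 𝔫 (normData613 𝔫 (a j) (b j) (m j)) :=
    fun j => isUnitOut_norm613 (fun v hv => hB.basis.unit_b j v hv)
      (fun v hv => hB.basis.conj_a j v hv) (fun v hv => hB.basis.bound_a j v hv)
      (fun w d hd => hB.basis.real_m j w d hd) (fun w d hd => hB.bound_m j w d hd)
  -- finiteness of the classes
  have hFin : ∀ j₀ : ι, {j : ι | normData613 𝔫 (a j) (b j) (m j)
      = normData613 𝔫 (a j₀) (b j₀) (m j₀)}.Finite := by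
    intro j₀
    have h1 := T2.finite_meanClass130 hcx h𝔫
      (F := T2.frameOf130 (⟨μ, F, r⟩ : T7.Frame5 K) hR) (u := e)
      (m := fun j => (normData613 𝔫 (a j) (b j) (m j)).m) hB.basis.cusp hB.basis.norm_one
      hB.basis.orth (fun j w => (hEig j).mean w) hB.eig_op j₀
    refine h1.subset ?_
    intro j hj w d hd
    have hj' : normData613 𝔫 (a j) (b j) (m j) = normData613 𝔫 (a j₀) (b j₀) (m j₀) := hj
    show (normData613 𝔫 (a j) (b j) (m j)).m w d = (normData613 𝔫 (a j₀) (b j₀) (m j₀)).m w d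
    rw [hj']
  -- the sequence
  set v : ℕ → G K → ℂ := fun n =>
    if h : ∃ j, g j = n then e (Classical.choose h) else 0 with hv
  set c : ℕ → EigData K := fun n =>
    if h : ∃ j, g j = n then
      normData613 𝔫 (a (Classical.choose h)) (b (Classical.choose h)) (m (Classical.choose h))
    else ⟨fun _ => 0, fun _ => 0, fun _ _ => 0⟩ with hc
  have hv_g : ∀ j, v (g j) = e j := fun j => by
    have h : ∃ j', g j' = g j := ⟨j, rfl⟩
    simp only [hv, dif_pos h]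
    rw [hg (Classical.choose_spec h)]
  have hc_g : ∀ j, c (g j) = normData613 𝔫 (a j) (b j) (m j) := fun j => by
    have h : ∃ j', g j' = g j := ⟨j, rfl⟩
    simp only [hc, dif_pos h]
    rw [hg (Classical.choose_spec h)]
  refine ⟨v, Set.range g, c, ?_, ?_, ?_, ?_, ?_, ?_, ?_⟩
  · -- eig
    rintro _ ⟨j, rfl⟩
    rw [hv_g, hc_g]
    exact hEig j
  · -- unit
    rintro _ ⟨j, rfl⟩
    rw [hc_g]
    exact hUnit j
  · -- norm_one
    rintro _ ⟨j, rfl⟩
    rw [hv_g]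
    exact hB.basis.norm_one j
  · -- orth
    rintro _ ⟨i, rfl⟩ _ ⟨j, rfl⟩ hij
    rw [hv_g, hv_g]
    exact hB.basis.orth i j fun h => hij (by rw [h])
  · -- parseval
    intro ψ hψ
    have hs := hB.basis.parseval ψ ((T2.isWFn_zero_iff130 hr _ ψ).1 hψ)
    refine ((Equiv.ofInjective g hg).hasSum_iff
      (f := fun n : Set.range g => ‖T5.innerD μ F ψ (v n)‖ ^ 2)).1 ?_
    have e1 : ((fun n : Set.range g => ‖T5.innerD μ F ψ (v n)‖ ^ 2) ∘ (Equiv.ofInjective g hg))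
        = fun j => ‖T2.pair (T2.frameOf130 (⟨μ, F, r⟩ : T7.Frame5 K) hR) ψ (e j)‖ ^ 2 := by
      funext j
      show ‖T5.innerD μ F ψ (v (g j))‖ ^ 2 = _
      rw [hv_g]
      rfl
    rw [e1]
    exact hs
  · -- finite
    rintro _ ⟨j₀, rfl⟩
    refine ((hFin j₀).image g).subset ?_
    rintro n ⟨⟨j, rfl⟩, hn⟩
    rw [hc_g, hc_g] at hn
    exact ⟨j, hn, rfl⟩
  · -- exhaust
    rintro _ ⟨j₀, rfl⟩ ψ hψ
    rw [hc_g] at hψ ⊢
    have hψE : IsEigFn 𝔫 r 0 (fun _ => u) ψ (normData613 𝔫 (a j₀) (b j₀) (m j₀)) := hψ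
    have hψc : T2.IsCuspFn 𝔫 ψ := (T2.isWFn_zero_iff130 hr _ ψ).1 hψE.inv
    set Fr : T2.Frame K := T2.frameOf130 (⟨μ, F, r⟩ : T7.Frame5 K) hR with hFr
    -- orthogonality to the other classes
    have horth : ∀ j, normData613 𝔫 (a j) (b j) (m j) ≠ normData613 𝔫 (a j₀) (b j₀) (m j₀) →
        T2.pair Fr ψ (e j) = 0 := by
      intro j hj
      by_contra hp
      exact hj (normData_eq_of_pair_ne613 hcx h𝔫 Fr hr u hψE (hB.basis.cusp j)
        (fun v hv => hB.basis.hecke j v hv) (fun w => hB.basis.eig_complex j w (hcx w))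
        (fun v hv => hB.basis.unit_b j v hv) (fun v hv => hB.basis.conj_a j v hv)
        (fun w d hd => hB.basis.real_m j w d hd) hp)
    -- the component in the class
    set S : Finset ι := (hFin j₀).toFinset with hS
    have hmemS : ∀ j, j ∈ S ↔
        normData613 𝔫 (a j) (b j) (m j) = normData613 𝔫 (a j₀) (b j₀) (m j₀) := fun j => by
      rw [hS, Set.Finite.mem_toFinset]
      rfl
    set coef : ι → ℂ := fun j => T2.pair Fr ψ (e j) with hcoef
    have hψ' : T2.IsCuspFn 𝔫 (fun x => ψ x - ∑ j ∈ S, coef j * e j x) :=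
      isCuspFn_sub_sum613 hFD hψc hB.basis.cusp coef S
    have hzero : ∀ i, T2.pair Fr (fun x => ψ x - ∑ j ∈ S, coef j * e j x) (e i) = 0 := by
      intro i
      rw [pair_sub_sum613 hFD Fr hψc hB.basis.cusp (hB.basis.cusp i) coef S]
      by_cases hi : i ∈ S
      · rw [Finset.sum_eq_single i]
        · rw [hB.basis.norm_one i, mul_one]
          exact sub_self _
        · intro j _ hji
          rw [hB.basis.orth j i hji, mul_zero]
        · intro h
          exact absurd hi h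
      · have h1 : ∑ j ∈ S, coef j * T2.pair Fr (e j) (e i) = 0 := by
          refine Finset.sum_eq_zero fun j hj => ?_
          have hji : j ≠ i := fun h => hi (h ▸ hj)
          rw [hB.basis.orth j i hji, mul_zero]
        rw [h1, sub_zero]
        exact horth i fun h => hi ((hmemS i).2 h)
    have hall : ∀ x : G K, ψ x = ∑ j ∈ S, coef j * e j x := by
      intro x
      have h := eq_zero_of_orth613 h𝔫 Fr hψ' (hB.basis.parseval _ hψ') hzero x
      exact sub_eq_zero.1 h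
    have hψeq : ψ = ∑ j ∈ S, coef j • e j := by
      funext x
      rw [hall x, Finset.sum_apply]
      rfl
    rw [hψeq]
    refine Submodule.sum_mem _ fun j hj => Submodule.smul_mem _ _ (Submodule.subset_span ?_)
    refine ⟨g j, ⟨j, rfl⟩, ?_, (hv_g j).symm⟩
    rw [hc_g]
    exact (hmemS j).1 hj

example (K : Type) [Field K] [NumberField K] : SD534.V2BasisC K := v2BasisC613 K

end Fermat.Agent.LT.T7.H613
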