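import Mathlib
import Fermat.Agent.LT.T7.H193.ProjSpec

/-!
# Row LT, tower T7, node T7.L2.1 `SupplyC`, station PROJ, LEAF PROJ.6 = UNIT-INV (helper613)

OFF-MAIN.  Registry row 2143 (`T7.L2.1.P08 UnitInvC`).  Complete proof, nothing assumed.
Spec: `Fermat/Agent/LT/T7/H193/ProjSpec.lean` (helper193, sha256 977a85e3...), byte-identical
copy; imports = Mathlib + the closure of the spec, nothing else.

    unitInvC613 (K) : H193.UnitInvC K

## Proof

All the elements are scalar matrices.  Let `E` be the scalar matrix `ε` of `GL₂(K)`; it is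
central in `GL₂(𝔸_K)`, so `e(g E) = e(E g) = e(g)` (`left_inv`).  Componentwise
(`ext613`: an element of `GL₂(𝔸_K)` is determined by its components, the `extensionEmbedding`s
being injective)

    E = z · k · u,

* `k` = the scalar matrix of the idele `(ε_w / ζ_w)_w` (`1` at the finite places), `ζ_w` the
  entry of `z` at `w`, which goes to `|ε|_w` under `extensionEmbedding`.  `k` is the product, in
  the commutative group of ideles, of the ideles `kLoc613 c w` supported at one infinite place;
  each of these is in `U(2)` (`|ε_w / |ε|_w| = 1`) and has determinant `(ε_w / |ε|_w)² = 1` at a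
  real place, so `IsArchCompact`, and `e` is right invariant under it (`arch_compact` with the
  trivial type);
* `u` = the scalar matrix of the finite idele `ε_f`; `u ∈ U(𝔑)` because `ε - 1 ∈ 𝔑` and
  `ε⁻¹ - 1 = -ε⁻¹ (ε - 1) ∈ 𝔑`.
-/

set_option autoImplicit false

open IsDedekindDomain NumberField

noncomputable section

namespace Fermat.Agent.LT.T7.H613

open Fermat.Agent.LT.H556 Fermat.Agent.LT.H556.A0 Fermat.Agent.LT

variable {K : Type} [Field K] [NumberField K]

/-! ## 1. Components -/

theorem infHom_algebraMap613 (w : InfinitePlace K) (x : K) :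
    T5.infHom w (algebraMap K (Adl K) x) = w.embedding x := by
  show InfinitePlace.Completion.extensionEmbedding w ((algebraMap K (Adl K) x).1 w) = _
  exact InfinitePlace.Completion.extensionEmbedding_coe w (WithAbs.toAbs _ x)

theorem finHom_algebraMap613 (v : HeightOneSpectrum (𝓞 K)) (x : K) :
    T5.finHom v (algebraMap K (Adl K) x) = algebraMap K (v.adicCompletion K) x := rfl

theorem infComp_mul613 (w : InfinitePlace K) (g h : G K) :
    infComp w (g * h) = infComp w g * infComp w h := by
  rw [T5.infComp_eq_map, T5.infComp_eq_map, T5.infComp_eq_map, Units.val_mul, Matrix.map_mul]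

theorem finComp_mul613 (v : HeightOneSpectrum (𝓞 K)) (g h : G K) :
    finComp v (g * h) = finComp v g * finComp v h := by
  rw [T5.finComp_eq_map, T5.finComp_eq_map, T5.finComp_eq_map, Units.val_mul, Matrix.map_mul]

/-- An element of `GL₂(𝔸_K)` is determined by its components. -/
theorem ext613 {g h : G K} (hi : ∀ w : InfinitePlace K, infComp w g = infComp w h)
    (hf : ∀ v : HeightOneSpectrum (𝓞 K), finComp v g = finComp v h) : g = h := by
  apply Units.ext
  ext i j
  refine Prod.ext (funext fun w => ?_) (RestrictedProduct.ext _ _ fun v => ?_)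
  · exact (InfinitePlace.Completion.extensionEmbedding w).injective
      (congrFun (congrFun (hi w) i) j)
  · exact congrFun (congrFun (hf v) i) j

theorem infComp_scalar613 (w : InfinitePlace K) (a : (Adl K)ˣ) :
    infComp w (Matrix.GeneralLinearGroup.scalar (Fin 2) a)
      = Matrix.diagonal fun _ => T5.infHom w (a : Adl K) := by
  rw [T5.infComp_eq_map, Matrix.GeneralLinearGroup.coe_scalar, Matrix.scalar_apply,
    Matrix.diagonal_map (map_zero _)]

theorem finComp_scalar613 (v : HeightOneSpectrum (𝓞 K)) (a : (Adl K)ˣ) :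
    finComp v (Matrix.GeneralLinearGroup.scalar (Fin 2) a)
      = Matrix.diagonal fun _ => T5.finHom v (a : Adl K) := by
  rw [T5.finComp_eq_map, Matrix.GeneralLinearGroup.coe_scalar, Matrix.scalar_apply,
    Matrix.diagonal_map (map_zero _)]

theorem trivAtInf_scalar613 (w : InfinitePlace K) (a : (Adl K)ˣ)
    (ha : (a : Adl K).1 w = 1) :
    TrivAtInf w (Matrix.GeneralLinearGroup.scalar (Fin 2) a) := by
  intro i j
  rw [Matrix.GeneralLinearGroup.coe_scalar, Matrix.scalar_apply]
  by_cases hij : i = j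
  · subst hij
    rw [Matrix.diagonal_apply_eq, Matrix.one_apply_eq, ha]
  · rw [Matrix.diagonal_apply_ne _ hij, Matrix.one_apply_ne hij]
    rfl

theorem trivAtFin_scalar613 (v : HeightOneSpectrum (𝓞 K)) (a : (Adl K)ˣ)
    (ha : T5.finHom v (a : Adl K) = 1) :
    TrivAtFin v (Matrix.GeneralLinearGroup.scalar (Fin 2) a) := by
  show finComp v _ = 1
  rw [finComp_scalar613, ha, Matrix.diagonal_one]

/-! ## 2. Ideles -/

/-- The idele with the given components. -/
def idl613 (c : (w : InfinitePlace K) → (w.Completion)ˣ) (d : (FiniteAdeleRing (𝓞 K) K)ˣ) :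
    (Adl K)ˣ where
  val := ((fun w => ((c w : (w.Completion)ˣ) : w.Completion)), (d : FiniteAdeleRing (𝓞 K) K))
  inv := ((fun w => (((c w)⁻¹ : (w.Completion)ˣ) : w.Completion)),
    ((d⁻¹ : (FiniteAdeleRing (𝓞 K) K)ˣ) : FiniteAdeleRing (𝓞 K) K))
  val_inv := Prod.ext (funext fun w => (c w).mul_inv) d.mul_inv
  inv_val := Prod.ext (funext fun w => (c w).inv_mul) d.inv_mul


theorem infHom_idl613 (w : InfinitePlace K) (c : (w : InfinitePlace K) → (w.Completion)ˣ)
    (d : (FiniteAdeleRing (𝓞 K) K)ˣ) :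
    T5.infHom w (idl613 c d : Adl K)
      = InfinitePlace.Completion.extensionEmbedding w ((c w : (w.Completion)ˣ) : w.Completion) :=
  rfl

theorem fst_idl613 (w : InfinitePlace K) (c : (w : InfinitePlace K) → (w.Completion)ˣ)
    (d : (FiniteAdeleRing (𝓞 K) K)ˣ) :
    (idl613 c d : Adl K).1 w = ((c w : (w.Completion)ˣ) : w.Completion) := rfl

theorem finHom_idl613 (v : HeightOneSpectrum (𝓞 K)) (c : (w : InfinitePlace K) → (w.Completion)ˣ)
    (d : (FiniteAdeleRing (𝓞 K) K)ˣ) :
    T5.finHom v (idl613 c d : Adl K) = (d : FiniteAdeleRing (𝓞 K) K) v := rfl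

/-- The ideles which are `1` at the finite places. -/
def idlInf613 : ((w : InfinitePlace K) → (w.Completion)ˣ) →* (Adl K)ˣ where
  toFun c := idl613 c 1
  map_one' := Units.ext rfl
  map_mul' _ _ := Units.ext (Prod.ext rfl (mul_one _).symm)

/-- The ideles which are `1` at the infinite places. -/
def idlFin613 : (FiniteAdeleRing (𝓞 K) K)ˣ →* (Adl K)ˣ where
  toFun d := idl613 1 d
  map_one' := Units.ext rfl
  map_mul' _ _ := Units.ext (Prod.ext (mul_one _).symm rfl)

/-- The finite idele of a unit of `𝒪_K`, as a scalar matrix. -/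
def unitFin613 : (𝓞 K)ˣ →* G K :=
  (Matrix.GeneralLinearGroup.scalar (Fin 2)).comp
    (idlFin613.comp (Units.map
      ((algebraMap K (FiniteAdeleRing (𝓞 K) K)).comp (algebraMap (𝓞 K) K)).toMonoidHom))

theorem finComp_unitFin613 (v : HeightOneSpectrum (𝓞 K)) (η : (𝓞 K)ˣ) :
    finComp v (unitFin613 η)
      = Matrix.diagonal fun _ =>
          algebraMap K (v.adicCompletion K) (algebraMap (𝓞 K) K (η : 𝓞 K)) :=
  finComp_scalar613 v _

theorem infComp_unitFin613 (w : InfinitePlace K) (η : (𝓞 K)ˣ) :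
    infComp w (unitFin613 η) = 1 := by
  refine (infComp_scalar613 w _).trans ?_
  have h : ∀ d : (FiniteAdeleRing (𝓞 K) K)ˣ,
      T5.infHom w ((idlFin613 d : (Adl K)ˣ) : Adl K) = 1 :=
    fun d => (infHom_idl613 w _ _).trans (map_one _)
  exact (congrArg Matrix.diagonal (funext fun _ => h _)).trans Matrix.diagonal_one

theorem trivAtInf_unitFin613 (w : InfinitePlace K) (η : (𝓞 K)ˣ) :
    TrivAtInf w (unitFin613 η) :=
  trivAtInf_scalar613 w _ rfl

theorem unitFin_half613 (𝔑 : Ideal (𝓞 K)) (η : (𝓞 K)ˣ) (hη : (η : 𝓞 K) - 1 ∈ 𝔑)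
    (v : HeightOneSpectrum (𝓞 K)) (i j : Fin 2) :
    (finComp v (unitFin613 η) - 1) i j ∈ idealClosure 𝔑 v := by
  rw [finComp_unitFin613]
  apply subset_closure
  by_cases hij : i = j
  · subst hij
    refine ⟨(η : 𝓞 K) - 1, hη, ?_⟩
    show algebraMap K (v.adicCompletion K) (algebraMap (𝓞 K) K ((η : 𝓞 K) - 1)) = _
    rw [Matrix.sub_apply, Matrix.diagonal_apply_eq, Matrix.one_apply_eq, map_sub, map_sub,
      map_one, map_one]
  · refine ⟨0, 𝔑.zero_mem, ?_⟩
    show algebraMap K (v.adicCompletion K) (algebraMap (𝓞 K) K 0) = _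
    rw [Matrix.sub_apply, Matrix.diagonal_apply_ne _ hij, Matrix.one_apply_ne hij, map_zero,
      map_zero, sub_zero]

theorem inLevelGroup_unitFin613 (𝔑 : Ideal (𝓞 K)) (ε : (𝓞 K)ˣ) (hε : (ε : 𝓞 K) - 1 ∈ 𝔑) :
    InLevelGroup 𝔑 (unitFin613 ε) := by
  refine ⟨fun w => trivAtInf_unitFin613 w ε, fun v i j => ⟨unitFin_half613 𝔑 ε hε v i j, ?_⟩⟩
  rw [← map_inv]
  refine unitFin_half613 𝔑 ε⁻¹ ?_ v i j
  have h : ((ε⁻¹ : (𝓞 K)ˣ) : 𝓞 K) - 1 = -((ε⁻¹ : (𝓞 K)ˣ) : 𝓞 K) * ((ε : 𝓞 K) - 1) := by
    have h1 : ((ε⁻¹ : (𝓞 K)ˣ) : 𝓞 K) * (ε : 𝓞 K) = 1 := ε.inv_mul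
    linear_combination h1
  rw [h]
  exact 𝔑.mul_mem_left _ hε

/-! ## 3. The stabiliser -/

/-- The right stabiliser of a function. -/
def stab613 (e : G K → ℂ) : Submonoid (G K) where
  carrier := {h | ∀ x : G K, e (x * h) = e x}
  one_mem' := fun x => by rw [mul_one]
  mul_mem' := fun {a b} ha hb x => by rw [← mul_assoc, hb, ha]

theorem mem_stab613 {e : G K → ℂ} {h : G K} :
    h ∈ stab613 e ↔ ∀ x : G K, e (x * h) = e x := Iff.rfl


/-! ## 4. The rational scalar -/

theorem ratG_scalar613 (a : Kˣ) :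
    T5.ratG (Matrix.GeneralLinearGroup.scalar (Fin 2) a)
      = Matrix.GeneralLinearGroup.scalar (Fin 2)
          (Units.map (algebraMap K (Adl K)).toMonoidHom a) := by
  apply Units.ext
  show ((Matrix.scalar (Fin 2) (a : K)).map (algebraMap K (Adl K)))
    = Matrix.scalar (Fin 2) (algebraMap K (Adl K) a)
  rw [Matrix.scalar_apply, Matrix.scalar_apply, Matrix.diagonal_map (map_zero _)]

theorem ratG_scalar_comm613 (a : Kˣ) (x : G K) :
    x * T5.ratG (Matrix.GeneralLinearGroup.scalar (Fin 2) a)
      = T5.ratG (Matrix.GeneralLinearGroup.scalar (Fin 2) a) * x := by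
  rw [ratG_scalar613]
  exact (Matrix.GeneralLinearGroup.scalar_commute _ x).symm

theorem infComp_ratG_scalar613 (w : InfinitePlace K) (a : Kˣ) :
    infComp w (T5.ratG (Matrix.GeneralLinearGroup.scalar (Fin 2) a))
      = Matrix.diagonal fun _ => w.embedding (a : K) := by
  rw [ratG_scalar613, infComp_scalar613]
  exact congrArg Matrix.diagonal (funext fun _ => infHom_algebraMap613 w (a : K))

theorem finComp_ratG_scalar613 (v : HeightOneSpectrum (𝓞 K)) (a : Kˣ) :
    finComp v (T5.ratG (Matrix.GeneralLinearGroup.scalar (Fin 2) a))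
      = Matrix.diagonal fun _ => algebraMap K (v.adicCompletion K) (a : K) := by
  rw [ratG_scalar613, finComp_scalar613]
  rfl

/-! ## 5. The compact pieces at the infinite places -/

section Arch

variable [DecidableEq (InfinitePlace K)]

/-- The scalar matrix which is `c w` at `w` and `1` elsewhere. -/
def kLoc613 (c : (w : InfinitePlace K) → (w.Completion)ˣ) (w : InfinitePlace K) : (Adl K)ˣ :=
  idlInf613 (Pi.mulSingle w (c w))

theorem prod_kLoc613 (c : (w : InfinitePlace K) → (w.Completion)ˣ) :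
    ∏ w : InfinitePlace K, kLoc613 c w = idlInf613 c := by
  unfold kLoc613
  rw [← map_prod, Finset.univ_prod_mulSingle]

theorem isLocalAtInf_kLoc613 (c : (w : InfinitePlace K) → (w.Completion)ˣ)
    (w : InfinitePlace K) :
    IsLocalAtInf w (Matrix.GeneralLinearGroup.scalar (Fin 2) (kLoc613 c w)) := by
  refine ⟨fun w' hw' => trivAtInf_scalar613 w' _ ?_, fun v => trivAtFin_scalar613 v _ rfl⟩
  show (((Pi.mulSingle w (c w) : (w : InfinitePlace K) → (w.Completion)ˣ) w' :
    (w'.Completion)ˣ) : w'.Completion) = 1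
  rw [Pi.mulSingle_eq_of_ne hw']
  rfl

theorem infComp_kLoc613 (c : (w : InfinitePlace K) → (w.Completion)ˣ) (w : InfinitePlace K) :
    infComp w (Matrix.GeneralLinearGroup.scalar (Fin 2) (kLoc613 c w))
      = Matrix.diagonal fun _ =>
          InfinitePlace.Completion.extensionEmbedding w ((c w : (w.Completion)ˣ) : w.Completion) := by
  refine (infComp_scalar613 w _).trans (congrArg Matrix.diagonal (funext fun _ => ?_))
  show InfinitePlace.Completion.extensionEmbedding w
    (((Pi.mulSingle w (c w) : (w : InfinitePlace K) → (w.Completion)ˣ) w :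
      (w.Completion)ˣ) : w.Completion) = _
  rw [Pi.mulSingle_eq_same]

theorem isArchCompact_kLoc613 (c : (w : InfinitePlace K) → (w.Completion)ˣ)
    (w : InfinitePlace K)
    (h1 : InfinitePlace.Completion.extensionEmbedding w ((c w : (w.Completion)ˣ) : w.Completion)
      * (starRingEnd ℂ) (InfinitePlace.Completion.extensionEmbedding w
          ((c w : (w.Completion)ˣ) : w.Completion)) = 1)
    (h2 : w.IsReal →
      InfinitePlace.Completion.extensionEmbedding w ((c w : (w.Completion)ˣ) : w.Completion)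
        * InfinitePlace.Completion.extensionEmbedding w
            ((c w : (w.Completion)ˣ) : w.Completion) = 1) :
    IsArchCompact w (Matrix.GeneralLinearGroup.scalar (Fin 2) (kLoc613 c w)) := by
  refine ⟨isLocalAtInf_kLoc613 c w, ?_, fun hw => ?_⟩
  · rw [infComp_kLoc613, Matrix.diagonal_conjTranspose, Matrix.diagonal_mul_diagonal]
    rw [← Matrix.diagonal_one]
    exact congrArg Matrix.diagonal (funext fun _ => h1)
  · rw [infComp_kLoc613, Matrix.det_diagonal, Fin.prod_univ_two]
    exact h2 hw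

end Arch


/-! ## 6. The leaf -/

/-- **LEAF PROJ.6 = UNIT-INV** (`H193.UnitInvC`). -/
theorem unitInvC613 (K : Type) [Field K] [NumberField K] : H193.UnitInvC K := by
  classical
  intro 𝔑 r e he ε hε z hzf hzi g
  -- the unit as an element of `K`
  have hε0 : algebraMap (𝓞 K) K (ε : 𝓞 K) ≠ 0 := by
    intro h
    exact ε.ne_zero ((FaithfulSMul.algebraMap_injective (𝓞 K) K) (h.trans (map_zero _).symm))
  have hpos : ∀ w : InfinitePlace K, 0 < w (algebraMap (𝓞 K) K (ε : 𝓞 K)) :=
    fun w => (InfinitePlace.pos_iff).mpr hε0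
  -- the entry of `z`
  have hζ : ∀ w : InfinitePlace K,
      InfinitePlace.Completion.extensionEmbedding w
        (((z : Matrix (Fin 2) (Fin 2) (Adl K)) 0 0).1 w)
        = ((w (algebraMap (𝓞 K) K (ε : 𝓞 K)) : ℝ) : ℂ) := fun w => by
    have h := congrFun (congrFun (hzi w) 0) 0
    rwa [Matrix.diagonal_apply_eq] at h
  have hζ0 : ∀ w : InfinitePlace K, ((z : Matrix (Fin 2) (Fin 2) (Adl K)) 0 0).1 w ≠ 0 := by
    intro w h
    have h' := hζ w
    rw [h, map_zero] at h'
    exact (hpos w).ne' (by exact_mod_cast h'.symm)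
  have hεw0 : ∀ w : InfinitePlace K,
      (algebraMap K (Adl K) (algebraMap (𝓞 K) K (ε : 𝓞 K))).1 w ≠ 0 := by
    intro w h
    have h' := infHom_algebraMap613 w (algebraMap (𝓞 K) K (ε : 𝓞 K))
    have h'' : T5.infHom w (algebraMap K (Adl K) (algebraMap (𝓞 K) K (ε : 𝓞 K))) = 0 :=
      (congrArg (InfinitePlace.Completion.extensionEmbedding w) h).trans (map_zero _)
    rw [h''] at h'
    exact hε0 ((map_eq_zero _).mp h'.symm)
  -- the quotient `ε / |ε|` at the infinite places
  let c : (w : InfinitePlace K) → (w.Completion)ˣ := fun w =>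
    Units.mk0 ((algebraMap K (Adl K) (algebraMap (𝓞 K) K (ε : 𝓞 K))).1 w
      / ((z : Matrix (Fin 2) (Fin 2) (Adl K)) 0 0).1 w) (div_ne_zero (hεw0 w) (hζ0 w))
  have hc : ∀ w : InfinitePlace K,
      InfinitePlace.Completion.extensionEmbedding w ((c w : (w.Completion)ˣ) : w.Completion)
        = w.embedding (algebraMap (𝓞 K) K (ε : 𝓞 K))
          / ((w (algebraMap (𝓞 K) K (ε : 𝓞 K)) : ℝ) : ℂ) := fun w => by
    show InfinitePlace.Completion.extensionEmbedding w (_ / _) = _
    rw [map_div₀, hζ w]
    exact congrArg (· / _) (infHom_algebraMap613 w _)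
  have hne : ∀ w : InfinitePlace K, ((w (algebraMap (𝓞 K) K (ε : 𝓞 K)) : ℝ) : ℂ) ≠ 0 :=
    fun w => by exact_mod_cast (hpos w).ne'
  have hc1 : ∀ w : InfinitePlace K,
      InfinitePlace.Completion.extensionEmbedding w ((c w : (w.Completion)ˣ) : w.Completion)
        * (starRingEnd ℂ) (InfinitePlace.Completion.extensionEmbedding w
          ((c w : (w.Completion)ˣ) : w.Completion)) = 1 := fun w => by
    rw [hc w, Complex.mul_conj, Complex.normSq_eq_norm_sq, norm_div,
      InfinitePlace.norm_embedding_eq, Complex.norm_real, Real.norm_of_nonneg (hpos w).le,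
      div_self (hpos w).ne', one_pow, Complex.ofReal_one]
  have hc2 : ∀ w : InfinitePlace K, w.IsReal →
      InfinitePlace.Completion.extensionEmbedding w ((c w : (w.Completion)ˣ) : w.Completion)
        * InfinitePlace.Completion.extensionEmbedding w
          ((c w : (w.Completion)ˣ) : w.Completion) = 1 := fun w hw => by
    have hconj : (starRingEnd ℂ) (InfinitePlace.Completion.extensionEmbedding w
          ((c w : (w.Completion)ˣ) : w.Completion))
        = InfinitePlace.Completion.extensionEmbedding w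
          ((c w : (w.Completion)ˣ) : w.Completion) := by
      rw [hc w, map_div₀, Complex.conj_ofReal]
      have h := InfinitePlace.conjugate_embedding_eq_of_isReal hw
      have h' := congrArg (fun φ : K →+* ℂ => φ (algebraMap (𝓞 K) K (ε : 𝓞 K))) h
      simp only [ComplexEmbedding.conjugate_coe_eq] at h'
      rw [h']
    have h := hc1 w
    rwa [hconj] at h
  -- the three factors stabilise `e`
  have hk : ∀ w : InfinitePlace K,
      kLoc613 c w ∈ (stab613 e).comap (Matrix.GeneralLinearGroup.scalar (Fin 2)) := fun w => by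
    rw [Submonoid.mem_comap]
    intro x
    have h := he.arch_compact w _ (isArchCompact_kLoc613 c w (hc1 w) (hc2 w)) x
    rw [h]
    show (1 : ℂ) * e x = e x
    rw [one_mul]
  have hK : Matrix.GeneralLinearGroup.scalar (Fin 2) (idlInf613 c) ∈ stab613 e := by
    rw [← Submonoid.mem_comap, ← prod_kLoc613 c]
    exact Submonoid.prod_mem _ fun w _ => hk w
  have hu : unitFin613 ε ∈ stab613 e :=
    fun x => he.level_inv _ (inLevelGroup_unitFin613 𝔑 ε hε) x
  -- the decomposition of the rational scalar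
  have hE : T5.ratG (Matrix.GeneralLinearGroup.scalar (Fin 2)
        (Units.map (algebraMap (𝓞 K) K).toMonoidHom ε))
      = z * Matrix.GeneralLinearGroup.scalar (Fin 2) (idlInf613 c) * unitFin613 ε := by
    refine ext613 (fun w => ?_) (fun v => ?_)
    · rw [infComp_mul613, infComp_mul613, infComp_unitFin613, mul_one, infComp_ratG_scalar613,
        hzi w, infComp_scalar613, Matrix.diagonal_mul_diagonal]
      refine congrArg Matrix.diagonal (funext fun _ => ?_)
      have h1 : T5.infHom w ((idlInf613 c : (Adl K)ˣ) : Adl K)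
          = w.embedding (algebraMap (𝓞 K) K (ε : 𝓞 K))
            / ((w (algebraMap (𝓞 K) K (ε : 𝓞 K)) : ℝ) : ℂ) := (infHom_idl613 w c 1).trans (hc w)
      rw [h1, mul_div_cancel₀ _ (hne w)]
      rfl
    · have hz1 : finComp v z = 1 := hzf v
      have hk1 : finComp v (Matrix.GeneralLinearGroup.scalar (Fin 2) (idlInf613 c)) = 1 :=
        trivAtFin_scalar613 v _ rfl
      rw [finComp_mul613, finComp_mul613, hz1, hk1, one_mul, one_mul, finComp_ratG_scalar613,
        finComp_unitFin613]
      rfl
  calc e (g * z)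
      = e (g * z * Matrix.GeneralLinearGroup.scalar (Fin 2) (idlInf613 c)) := (hK _).symm
    _ = e (g * z * Matrix.GeneralLinearGroup.scalar (Fin 2) (idlInf613 c) * unitFin613 ε) :=
        (hu _).symm
    _ = e (g * T5.ratG (Matrix.GeneralLinearGroup.scalar (Fin 2)
          (Units.map (algebraMap (𝓞 K) K).toMonoidHom ε))) := by
        rw [hE, mul_assoc, mul_assoc, mul_assoc]
    _ = e (T5.ratG (Matrix.GeneralLinearGroup.scalar (Fin 2)
          (Units.map (algebraMap (𝓞 K) K).toMonoidHom ε)) * g) := by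
        rw [ratG_scalar_comm613]
    _ = e g := he.left_inv _ g

example (K : Type) [Field K] [NumberField K] : H193.UnitInvC K := unitInvC613 K

end Fermat.Agent.LT.T7.H613
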